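/-
S44, block X, ASSEMBLY of NodeSlope (helper213): elementary lemmas on valuation subrings.
-/
import Mathlib

set_option autoImplicit false

noncomputable section

namespace Fermat.Agent.S44.X.Slope.Asm

variable {F : Type*} [Field F] (V : ValuationSubring F)

theorem sv_eq_one_iff (x : F) : V.valuation x = 1 ↔ x ≠ 0 ∧ x ∈ V ∧ x⁻¹ ∈ V := by
  rw [← V.valuation_le_one_iff, ← V.valuation_le_one_iff, map_inv₀]
  constructor
  · intro h
    refine ⟨?_, ?_, ?_⟩
    · rintro rfl
      rw [map_zero] at h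
      exact zero_ne_one h
    · rw [h]
    · rw [h, inv_one]
  · rintro ⟨h0, h1, h2⟩
    have hv0 : V.valuation x ≠ 0 := (Valuation.ne_zero_iff _).2 h0
    exact le_antisymm h1 ((inv_le_one₀ (zero_lt_iff.2 hv0)).1 h2)

theorem sv_lt_one_iff (x : F) : V.valuation x < 1 ↔ x = 0 ∨ x⁻¹ ∉ V := by
  rw [← V.valuation_le_one_iff, map_inv₀]
  constructor
  · intro h
    by_cases h0 : x = 0
    · exact Or.inl h0
    · right
      have hv0 : V.valuation x ≠ 0 := (Valuation.ne_zero_iff _).2 h0
      intro h1
      exact absurd h (not_lt.2 ((inv_le_one₀ (zero_lt_iff.2 hv0)).1 h1))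
  · rintro (rfl | h)
    · rw [map_zero]
      exact zero_lt_one
    · by_contra hcon
      exact h (inv_le_one_of_one_le₀ (not_lt.1 hcon))

variable {V}

section Comap

variable {F' : Type*} [Field F'] {V' : ValuationSubring F'} {φ : F →+* F'}

theorem sv_map_eq_one (h : ∀ z, z ∈ V ↔ φ z ∈ V') {x : F} :
    V'.valuation (φ x) = 1 ↔ V.valuation x = 1 := by
  rw [sv_eq_one_iff, sv_eq_one_iff, ← map_inv₀, ← h, ← h, map_ne_zero]

theorem sv_map_lt_one (h : ∀ z, z ∈ V ↔ φ z ∈ V') {x : F} :
    V'.valuation (φ x) < 1 ↔ V.valuation x < 1 := by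
  rw [sv_lt_one_iff, sv_lt_one_iff, ← map_inv₀, ← h, map_eq_zero]

end Comap

/-- `x ≡ 1` modulo the maximal ideal. -/
def One1 (V : ValuationSubring F) (x : F) : Prop := V.valuation (x - 1) < 1

theorem One1.val {x : F} (h : One1 V x) : V.valuation x = 1 := by
  have := Valuation.map_one_add_of_lt (v := V.valuation) h
  rwa [add_sub_cancel] at this

theorem One1.ne_zero {x : F} (h : One1 V x) : x ≠ 0 := by
  rintro rfl
  have := h.val
  rw [map_zero] at this
  exact zero_ne_one this

theorem One1.one : One1 V (1 : F) := by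
  unfold One1
  rw [sub_self, map_zero]
  exact zero_lt_one

theorem One1.mul {x y : F} (hx : One1 V x) (hy : One1 V y) : One1 V (x * y) := by
  unfold One1
  have e : x * y - 1 = (x - 1) * y + (y - 1) := by ring
  rw [e]
  refine lt_of_le_of_lt (V.valuation.map_add _ _) (max_lt ?_ hy)
  rw [map_mul, hy.val, mul_one]
  exact hx

theorem One1.inv {x : F} (hx : One1 V x) : One1 V x⁻¹ := by
  unfold One1
  have h0 := hx.ne_zero
  have e : x⁻¹ - 1 = -((x - 1) * x⁻¹) := by
    field_simp
    ring
  rw [e, Valuation.map_neg, map_mul, map_inv₀, hx.val, inv_one, mul_one]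
  exact hx

theorem One1.pow {x : F} (hx : One1 V x) (n : ℕ) : One1 V (x ^ n) := by
  induction n with
  | zero => rw [pow_zero]; exact One1.one
  | succ n ih => rw [pow_succ]; exact ih.mul hx

theorem One1.div {x y : F} (hx : One1 V x) (hy : One1 V y) : One1 V (x / y) := by
  rw [div_eq_mul_inv]
  exact hx.mul hy.inv

/-- `B = y ε`, `ε ≡ 1`, `B ≡ R`, `R` a unit: then `y ≡ R`. -/
theorem sv_bridge {B y ε R : F} (hB : B = y * ε) (hε : One1 V ε) (hR : V.valuation R = 1)
    (h : V.valuation (B - R) < 1) : V.valuation (y - R) < 1 := by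
  have hvB : V.valuation B = 1 := by
    have e : B = R + (B - R) := by ring
    rw [e, Valuation.map_add_eq_of_lt_left _ (by rw [hR]; exact h), hR]
  have hvy : V.valuation y = 1 := by
    rw [hB, map_mul, hε.val, mul_one] at hvB
    exact hvB
  have e : y - R = (B - R) - y * (ε - 1) := by rw [hB]; ring
  rw [e]
  refine lt_of_le_of_lt (V.valuation.map_sub _ _) (max_lt h ?_)
  rw [map_mul, hvy, one_mul]
  exact hε

theorem sv_val_eq_one_of_sub_lt {y R : F} (hR : V.valuation R = 1)
    (h : V.valuation (y - R) < 1) : V.valuation y = 1 := by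
  have e : y = R + (y - R) := by ring
  rw [e, Valuation.map_add_eq_of_lt_left _ (by rw [hR]; exact h), hR]

end Fermat.Agent.S44.X.Slope.Asm

end
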