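/-
S44, block X, ASSEMBLY of NodeSlope (helper213): the Gauss valuation ring `G` of `FN L` and `IsRed`.
-/
import Fermat.Agent.S44.X.Slope.Asm.Val
import Fermat.Agent.S44.X.Cover.Inst
import Fermat.Agent.S44.X.Red.API
import Fermat.Agent.S44.X.Top

set_option autoImplicit false

noncomputable section

namespace Fermat.Agent.S44.X.Slope.Asm

open ModularCurve AlgebraicCurve Fermat.Agent.S24 Fermat.Agent.GAL Fermat.Agent.S28.Export
  Fermat.Agent.S44.X.Cover

variable {A : ValuationSubring Qb} {L : ℕ} {G : ValuationSubring (FN L)}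

theorem exists_red_of_mem (hG : IsGaussFN A L G) {f : FN L} (hf : f ∈ G) :
    ∃ g, Red A (f : LaurentSeries Qb) g := by
  obtain ⟨P, Q, hQ, h⟩ := (hG f).1 hf
  exact ⟨E.red A P / E.red A Q, P, Q, hQ, h, div_mul_cancel₀ _ hQ⟩

theorem mem_of_red (hG : IsGaussFN A L G) {f : FN L} {g : LaurentSeries (kA A)}
    (h : Red A (f : LaurentSeries Qb) g) : f ∈ G := by
  obtain ⟨P, Q, hQ, h1, -⟩ := h
  exact (hG f).2 ⟨P, Q, hQ, h1⟩

theorem coe_inv_FN (f : FN L) : ((f⁻¹ : FN L) : LaurentSeries Qb) = (f : LaurentSeries Qb)⁻¹ :=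
  map_inv₀ (modularFunctionFieldBar L).val f

theorem red_ne_zero_of_val (hG : IsGaussFN A L G) {f : FN L} (hf : G.valuation f = 1)
    {g : LaurentSeries (kA A)} (h : Red A (f : LaurentSeries Qb) g) : g ≠ 0 := by
  rintro rfl
  obtain ⟨h0, -, h2⟩ := (sv_eq_one_iff G f).1 hf
  obtain ⟨g', hg'⟩ := exists_red_of_mem hG h2
  have h3 := h.mul hg'
  have hf0 : (f : LaurentSeries Qb) ≠ 0 := fun h => h0 (Subtype.ext h)
  rw [coe_inv_FN, mul_inv_cancel₀ hf0, zero_mul] at h3
  exact one_ne_zero (red_one.unique h3)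

theorem red_zero_of_val_lt (hG : IsGaussFN A L G) {f : FN L} (hf : G.valuation f < 1) :
    Red A (f : LaurentSeries Qb) 0 := by
  have hmem : f ∈ G := (G.valuation_le_one_iff f).1 hf.le
  obtain ⟨g, hg⟩ := exists_red_of_mem hG hmem
  by_cases h0 : g = 0
  · rwa [h0] at hg
  · exfalso
    have h1 := hg.inv h0
    rw [← coe_inv_FN] at h1
    have h2 : f⁻¹ ∈ G := mem_of_red hG h1
    rcases (sv_lt_one_iff G f).1 hf with rfl | h3
    · exact h0 (hg.unique red_zero)
    · exact h3 h2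

/-- Congruent units of `G` have the same reductions. -/
theorem isRed_of_val_sub_lt {p : ℕ} (hp : p.Prime) (hA : A.LiesOverPrime p)
    (hG : IsGaussFN A L G) {y R : FN L} (hy : G.valuation y = 1) (h : G.valuation (R - y) < 1)
    {ybar : LaurentSeries (kA A)} (hbar : IsRed A y ybar) : IsRed A R ybar := by
  obtain ⟨-, hmem, -⟩ := (sv_eq_one_iff G y).1 hy
  obtain ⟨g, hg⟩ := exists_red_of_mem hG hmem
  have hg0 := red_ne_zero_of_val hG hy hg
  have h1 : IsRed A y g := isRed_of_red hp hA hg0 one_ne_zero (by rwa [one_smul])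
  have h2 : Red A (R : LaurentSeries Qb) g := by
    have h3 := hg.add (red_zero_of_val_lt hG h)
    have e : (y : LaurentSeries Qb) + ((R - y : FN L) : LaurentSeries Qb) = R := by
      have : y + (R - y) = R := by ring
      exact congrArg Subtype.val this
    rwa [e, add_zero] at h3
  have h4 : IsRed A R g := isRed_of_red hp hA hg0 one_ne_zero (by rwa [one_smul])
  obtain ⟨a, ha, rfl⟩ := h1.unique hbar
  exact h4.C_mul ha

theorem IsRed.zpow' {N : ℕ} {u : FN N} {ubar : LaurentSeries (kA A)} (hu : IsRed A u ubar)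
    (n : ℤ) : IsRed A (u ^ n) (ubar ^ n) := by
  cases n with
  | ofNat n => simpa using hu.pow n
  | negSucc n =>
    rw [zpow_negSucc, zpow_negSucc]
    exact (hu.pow (n + 1)).inv

theorem isRed_natCast_zpow {N p : ℕ} (hp : p ≠ 0) (n : ℤ) : IsRed A ((p : FN N) ^ n) 1 := by
  have e : ((p : FN N) ^ n) = algebraMap Qb (FN N) ((p : Qb) ^ n) := by
    rw [map_zpow₀, map_natCast]
  rw [e]
  exact isRed_algebraMap (zpow_ne_zero _ (Nat.cast_ne_zero.2 hp))

section Ord

variable {M p : ℕ} [NeZero M] [NeZero p] {G : ValuationSubring (FN (M * p))}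

theorem coe_Fk_expr (ubar sbar dbar : Fk A M) (n : ℕ) :
    ((ubar * sbar ^ n / dbar : Fk A M) : LaurentSeries (kA A)) =
      (ubar : LaurentSeries (kA A)) * (sbar : LaurentSeries (kA A)) ^ n /
        (dbar : LaurentSeries (kA A)) := by
  refine (map_div₀ (modularFunctionFieldFullC (kA A) M).val (ubar * sbar ^ n) dbar).trans ?_
  show ((ubar * sbar ^ n : Fk A M) : LaurentSeries (kA A)) / (dbar : LaurentSeries (kA A)) = _
  rw [IntermediateField.coe_mul, IntermediateField.coe_pow]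

/-- From a congruence in `G` to a reduction. -/
theorem exists_isRed_of_cong (hR : NodeRed) (hp : p.Prime) (hpM : ¬ p ∣ M)
    (hA : A.LiesOverPrime p) (hG : IsGaussFN A (M * p) G) {U₁ s d R : FN (M * p)}
    {ubar dbar : Fk A M} (hu : IsRed A U₁ (ubar : LaurentSeries (kA A)))
    (hd : IsRed A d (dbar : LaurentSeries (kA A))) (hs : s ≠ 0) (hRv : G.valuation R = 1)
    (h : G.valuation (U₁ * s ^ p / d - R) < 1) :
    ∃ sbar : Fk A M, sbar ≠ 0 ∧
      IsRed A R ((ubar * sbar ^ p / dbar : Fk A M) : LaurentSeries (kA A)) := by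
  obtain ⟨sbar, hsbar⟩ := hR p M hp hpM A hA s hs
  have hs0 : sbar ≠ 0 := by
    rintro rfl
    exact hsbar.ne_zero rfl
  refine ⟨sbar, hs0, ?_⟩
  rw [coe_Fk_expr]
  have h1 : IsRed A (U₁ * s ^ p / d) ((ubar : LaurentSeries (kA A)) *
      (sbar : LaurentSeries (kA A)) ^ p / (dbar : LaurentSeries (kA A))) :=
    (hu.mul (hsbar.pow p)).div hd
  have h2 : G.valuation (U₁ * s ^ p / d) = 1 := sv_val_eq_one_of_sub_lt hRv h
  refine isRed_of_val_sub_lt hp hA hG h2 ?_ h1
  rw [← neg_sub, Valuation.map_neg]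
  exact h

end Ord

end Fermat.Agent.S44.X.Slope.Asm

end
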