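/-
S44, block X, ASSEMBLY of NodeSlope (helper213): THE CORE, over a generic field `K` (the inertia
field in the application).

Inputs: the nodes of `Cover/Nodes.lean` (`NodeField`, `NodeSheet`, `NodeUnif`), `Y3.cdesc_TR`,
`Hor.horUnr`, `Hor.horDiv`, `PL.pl_main₀`, `NodeRed`, and the points of the regular model.
-/
import Fermat.Agent.S44.X.Slope.Asm.RedG
import Fermat.Agent.S44.X.Cover.Hor.Main
import Fermat.Agent.S44.X.Cover.Y3.Main
import Fermat.Agent.S44.X.PL.Main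
import Fermat.Agent.S44.X.Model.Centre
import Fermat.Agent.S44.X.Div4

set_option autoImplicit false

noncomputable section

namespace Fermat.Agent.S44.X.Slope.Asm

open ModularCurve AlgebraicCurve Fermat.Agent.S24 Fermat.Agent.GAL Fermat.Agent.S28.Export
  Fermat.Agent.S44.X.Cover Fermat.Agent.BAD.Bridge Fermat.Agent.S36.BP
open Fermat.Agent.S18 (IsUnif)

section Bridge

variable {K : Type} [Field K] [Algebra ℚ K] [Algebra K Kbar] {L p : ℕ} {W : LaurentSeries Kbar}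

/-- From a congruence on the sheet `W0` of `F_Y` to a congruence in the Gauss ring of `FN L`. -/
theorem bridge {G : ValuationSubring (FN L)} {Wb : ValuationSubring (FYb L W)}
    {W0 : ValuationSubring (FY K L W)}
    (hWbG : ∀ z : FN L, algebraMap (FN L) (FYb L W) z ∈ Wb ↔ z ∈ G)
    (hW0 : ∀ z : FY K L W, z ∈ W0 ↔ bcY K L W z ∈ Wb)
    (hdense : ∀ b : FYb L W, b ≠ 0 → ∃ b₀ : FN L, b₀ ≠ 0 ∧
      Wb.valuation (b / algebraMap (FN L) (FYb L W) b₀ - 1) < 1)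
    {u g : FY K L W} {U₁ : FN L} {b : FYb L W} (hb : b ≠ 0)
    (hub : bcY K L W u = algebraMap (FN L) (FYb L W) U₁ * b ^ p)
    (hg : W0.valuation g = 1) {d r : FK K L} (hd : d ≠ 0)
    (hr : G.valuation (bcX K L r) = 1)
    (h : W0.valuation (u / (algebraMap (FK K L) (FY K L W) d * g ^ p) -
      algebraMap (FK K L) (FY K L W) r) < 1) :
    ∃ s : FN L, s ≠ 0 ∧ G.valuation (U₁ * s ^ p / bcX K L d - bcX K L r) < 1 := by
  have hg0 : g ≠ 0 := ((sv_eq_one_iff W0 g).1 hg).1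
  have hg0' : bcY K L W g ≠ 0 := (map_ne_zero _).2 hg0
  obtain ⟨b₀, hb₀, hb1⟩ := hdense b hb
  obtain ⟨g₀, hg₀, hg1⟩ := hdense _ hg0'
  refine ⟨b₀ / g₀, div_ne_zero hb₀ hg₀, ?_⟩
  have h1 := (sv_map_lt_one (φ := bcY K L W) hW0).2 h
  rw [map_sub, map_div₀, map_mul, map_pow, bcY_algebraMap, bcY_algebraMap, hub] at h1
  have hε : One1 Wb (((b / algebraMap (FN L) (FYb L W) b₀) /
      (bcY K L W g / algebraMap (FN L) (FYb L W) g₀)) ^ p) :=
    ((show One1 Wb _ from hb1).div (show One1 Wb _ from hg1)).pow p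
  have hB : algebraMap (FN L) (FYb L W) U₁ * b ^ p /
      (algebraMap (FN L) (FYb L W) (bcX K L d) * bcY K L W g ^ p) =
      algebraMap (FN L) (FYb L W) (U₁ * (b₀ / g₀) ^ p / bcX K L d) *
        ((b / algebraMap (FN L) (FYb L W) b₀) /
          (bcY K L W g / algebraMap (FN L) (FYb L W) g₀)) ^ p := by
    rw [map_div₀, map_mul, map_pow, map_div₀]
    have e1 : algebraMap (FN L) (FYb L W) b₀ ≠ 0 := (map_ne_zero _).2 hb₀
    have e2 : algebraMap (FN L) (FYb L W) g₀ ≠ 0 := (map_ne_zero _).2 hg₀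
    have e3 : algebraMap (FN L) (FYb L W) (bcX K L d) ≠ 0 :=
      (map_ne_zero _).2 ((map_ne_zero _).2 hd)
    rw [div_pow, div_pow, div_pow, div_pow]
    field_simp
  have hR : Wb.valuation (algebraMap (FN L) (FYb L W) (bcX K L r)) = 1 :=
    (sv_map_eq_one (φ := algebraMap (FN L) (FYb L W)) (fun z => (hWbG z).symm)).2 hr
  have h2 := sv_bridge hB hε hR h1
  rw [← map_sub] at h2
  exact (sv_map_lt_one (φ := algebraMap (FN L) (FYb L W)) (fun z => (hWbG z).symm)).1 h2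

end Bridge

theorem exists_primitiveRoot_Kbar (p : ℕ) [NeZero p] : ∃ ζ : Kbar, IsPrimitiveRoot ζ p :=
  haveI : NeZero (p : Kbar) := ⟨Nat.cast_ne_zero.2 (NeZero.ne p)⟩
  HasEnoughRootsOfUnity.exists_primitiveRoot Kbar p

/-- **The core of the assembly.** -/
theorem slope_core (hField : NodeField) (hSheet : NodeSheet) (hUnif : NodeUnif) (hR : NodeRed)
    {K : Type} [Field K] [Algebra ℚ K] [Algebra K Kbar]
    (A : ValuationSubring Qb) (p M : ℕ) [NeZero p] [NeZero M] (hp : p.Prime) (hp2 : p ≠ 2)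
    (hpM : ¬ p ∣ M) (hA : A.LiesOverPrime p) (hfix : IsFix K (Iner A)) (A₀ : ValuationSubring K)
    (hA₀ : ∀ x : K, x ∈ A₀ ↔ algebraMap K Kbar x ∈ A) (hU : IsUnif A₀ (p : K))
    (D : C1.ALData M p) (G : ValuationSubring (FN (M * p))) (hG : IsGaussFN A (M * p) G)
    (hGH : GHyp A (Iner A) (M * p) G) (hGH' : GHyp A (Iner A) (M * p) (wG D G))
    (U U₁ : FN (M * p)) (W : LaurentSeries Kbar) (hRoot : RootData (Iner A) p (M * p) U W)
    (hU₁ : U₁ ≠ 0) (hK₁ : E.IsKum (M * p) p U₁)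
    (hgal₁ : ∀ τ ∈ Iner A, ∃ (m : ℕ) (h : FN (M * p)),
      E.galF (M * p) τ U₁ = U₁ * U ^ m * h ^ p)
    (H : Set GQ)
    (hH : ∀ τ ∈ H, τ ∈ Iner A ∧ ∃ g : FN (M * p), E.galF (M * p) τ U₁ = U₁ * g ^ p)
    (hdeep : ∀ n : ℕ, ∃ t : FN (M * p), t ≠ 0 ∧ Deep G p n (U * t ^ p))
    (hdeep' : ∀ n : ℕ, ∃ t : FN (M * p), t ≠ 0 ∧ Deep (wG D G) p n (U * t ^ p))
    (hrat : ∀ t : FN (M * p), Deep G p 2 (U * t ^ p) → IsRat (Iner A) p (M * p) W G t)
    (hrat' : ∀ t : FN (M * p), Deep (wG D G) p 2 (U * t ^ p) →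
      IsRat (Iner A) p (M * p) W (wG D G) t)
    (Va Vb : ValuationSubring (FK K (M * p))) (x y : FK K (M * p))
    (hVa : ∀ z, z ∈ Va ↔ bcX K (M * p) z ∈ G) (hVb : ∀ z, z ∈ Vb ↔ bcX K (M * p) z ∈ wG D G)
    (hVaU : IsUnif Va (p : FK K (M * p))) (hVbU : IsUnif Vb (p : FK K (M * p)))
    (hpts : ∀ w : Place (kA A) (Fk A M), ∃ R : Subring (FK K (M * p)), (∀ r ∈ R, r ∈ Va) ∧
      Model.Centred (algebraMap K Qb) R w ∧
      (0 ≤ w.ord (jk A M) → PL.IsNode A₀ p R Va Vb x y ∨ (PL.IsSmooth A₀ p R Va ∧ RUnit R x)) ∧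
      (w.ord (jk A M) < 0 → PL.IsSmooth A₀ p R Va))
    (ubar xbar : Fk A M) (hubar : IsRed A U₁ (ubar : LaurentSeries (kA A)))
    (hxbar : IsRed A (bcX K (M * p) x) (xbar : LaurentSeries (kA A))) :
    TR A p H ∨ ∃ c : ℤ,
      (∀ w : Place (kA A) (Fk A M), 0 ≤ w.ord (jk A M) →
        (p : ℤ) ∣ w.ord ubar - c * w.ord xbar) ∧
      (∀ w : Place (kA A) (Fk A M), w.ord (jk A M) < 0 → (p : ℤ) ∣ w.ord ubar) := by
  by_cases hT : TR A p H
  · exact Or.inl hT
  right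
  have : Fact p.Prime := ⟨hp⟩
  obtain ⟨ζ, hζ⟩ := exists_primitiveRoot_Kbar p
  obtain ⟨-, hspan, σ, γ, hDeck, hpow, hσ, hfixσ, -, -⟩ :=
    hField K (Iner A) p (M * p) hp hfix U W hRoot ζ hζ
  obtain ⟨hfd, hgalois, hdeg⟩ := PL.cyc_of_fixed σ hpow hσ hfixσ
  obtain ⟨u, β, b, a, e, hu, hβ, hb, hub, hσu, ha⟩ :=
    Y3.cdesc_TR A hfix A₀ hA₀ hp.pos hU hRoot hζ.pow_eq_one hDeck U₁ hU₁ hgal₁ H hH hT
  obtain ⟨Wa, Wba, hPa, hWbG, hW0, hdense⟩ :=
    hSheet K A (Iner A) p (M * p) hp hp2 hA hfix U W hRoot ζ hζ σ γ hDeck G hGH hdeep hrat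
  obtain ⟨Wb, -, hPb, -, -, -⟩ :=
    hSheet K A (Iner A) p (M * p) hp hp2 hA hfix U W hRoot ζ hζ σ γ hDeck (wG D G) hGH' hdeep'
      hrat'
  obtain rfl : Va = G.comap (bcX K (M * p)) := SetLike.ext hVa
  obtain rfl : Vb = (wG D G).comap (bcX K (M * p)) := SetLike.ext hVb
  have hSa : PL.Sheets p σ (G.comap (bcX K (M * p))) Wa :=
    ⟨hPa.lies, hPa.shift, hPa.inj, hUnif _ _ p σ hp hpow hfixσ _ Wa hPa hVaU⟩
  have hSb : PL.Sheets p σ ((wG D G).comap (bcX K (M * p))) Wb :=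
    ⟨hPb.lies, hPb.shift, hPb.inj, hUnif _ _ p σ hp hpow hfixσ _ Wb hPb hVbU⟩
  have hHor : PL.HorU K (FK K (M * p)) (FY K (M * p) W) :=
    (Hor.horUnr K p (M * p) hp.ne_zero U W hRoot.pow hRoot.nrm hRoot.kum hspan).horU
  have hdiv : HorDiv K p u :=
    Hor.horDiv K p (M * p) hp.ne_zero U W hRoot.pow hspan u hu U₁ hK₁ b hub
  have hcA : ∀ a ∈ A₀, algebraMap K (FK K (M * p)) a ∈ G.comap (bcX K (M * p)) := by
    intro a ha
    show bcX K (M * p) (algebraMap K (FK K (M * p)) a) ∈ G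
    rw [Hor.bcX_const, hGH.const]
    exact (hA₀ a).1 ha
  have hcB : ∀ a ∈ A₀, algebraMap K (FK K (M * p)) a ∈ (wG D G).comap (bcX K (M * p)) := by
    intro a ha
    show bcX K (M * p) (algebraMap K (FK K (M * p)) a) ∈ wG D G
    rw [Hor.bcX_const, hGH'.const]
    exact (hA₀ a).1 ha
  obtain ⟨c₀, hnode, hsmooth⟩ := PL.pl_main₀ hdeg hσ hU hcA hcB hSa hSb hHor hu hβ hσu ha hdiv
  have hub0 : ubar ≠ 0 := by
    rintro rfl
    exact hubar.ne_zero rfl
  have hxb0 : xbar ≠ 0 := by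
    rintro rfl
    exact hxbar.ne_zero rfl
  -- the key computation at one point
  have key : ∀ (w : Place (kA A) (Fk A M)) (R : Subring (FK K (M * p))),
      (∀ r ∈ R, r ∈ G.comap (bcX K (M * p))) → Model.Centred (algebraMap K Qb) R w →
      ∀ (d : FK K (M * p)) (dbar : Fk A M), d ≠ 0 →
        IsRed A (bcX K (M * p) d) (dbar : LaurentSeries (kA A)) →
      ∀ (g : FY K (M * p) W) (r : FK K (M * p)), (Wa 0).valuation g = 1 → RUnit R r →
        (Wa 0).valuation (u / (algebraMap (FK K (M * p)) (FY K (M * p) W) d * g ^ p) -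
          algebraMap (FK K (M * p)) (FY K (M * p) W) r) < 1 →
        (p : ℤ) ∣ w.ord ubar - w.ord dbar := by
    intro w R hRV hC d dbar hd hdbar g r hg hr hcong
    have hrv : G.valuation (bcX K (M * p) r) = 1 := by
      refine (sv_map_eq_one (V := G.comap (bcX K (M * p))) (φ := bcX K (M * p))
        (fun z => Iff.rfl)).2 ?_
      exact (sv_eq_one_iff _ r).2 ⟨hr.1, hRV _ hr.2.1, hRV _ hr.2.2⟩
    obtain ⟨s, hs, hc⟩ := bridge hWbG hW0 hdense hb hub hg hd hrv hcong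
    obtain ⟨sbar, hs0, hred⟩ := exists_isRed_of_cong hR hp hpM hA hG hubar hdbar hs hrv hc
    have h0 := hC r hr (ubar * sbar ^ p / dbar) hred
    have hd0 : dbar ≠ 0 := by
      rintro rfl
      exact hdbar.ne_zero rfl
    rw [div_eq_mul_inv, w.ord_mul (mul_ne_zero hub0 (pow_ne_zero _ hs0)) (inv_ne_zero hd0),
      w.ord_mul hub0 (pow_ne_zero _ hs0), Place.ord_inv, FF.ord_pow] at h0
    exact ⟨-w.ord sbar, by linarith⟩
  have hp0 : (p : FK K (M * p)) ≠ 0 := hVaU.ne_zero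
  -- the smooth points
  have keyS : ∀ (w : Place (kA A) (Fk A M)) (R : Subring (FK K (M * p))),
      (∀ r ∈ R, r ∈ G.comap (bcX K (M * p))) → Model.Centred (algebraMap K Qb) R w →
      PL.IsSmooth A₀ p R (G.comap (bcX K (M * p))) → (p : ℤ) ∣ w.ord ubar := by
    intro w R hRV hC hS
    obtain ⟨n, g, r, hg, hr, hcong⟩ := hsmooth R hS
    have hd : IsRed A (bcX K (M * p) ((p : FK K (M * p)) ^ n))
        ((1 : Fk A M) : LaurentSeries (kA A)) := by
      rw [map_zpow₀, map_natCast]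
      exact isRed_natCast_zpow hp.ne_zero n
    have h1 := key w R hRV hC ((p : FK K (M * p)) ^ n) 1 (zpow_ne_zero _ hp0) hd g r hg hr
      (by rw [map_zpow₀, map_natCast]; exact hcong)
    rwa [Place.ord_one, sub_zero] at h1
  refine ⟨(c₀.val : ℤ), fun w hw => ?_, fun w hw => ?_⟩
  · obtain ⟨R, hRV, hC, h1, -⟩ := hpts w
    rcases h1 hw with hN | ⟨hS, hx⟩
    · obtain ⟨n, k, g, r, hg, hr, hk, hcong⟩ := hnode R x y hN
      have hx0 : x ≠ 0 := by
        rintro rfl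
        have := hN.x_unit
        rw [map_zero] at this
        exact zero_ne_one this
      have hd : IsRed A (bcX K (M * p) ((p : FK K (M * p)) ^ n * x ^ k))
          ((xbar ^ k : Fk A M) : LaurentSeries (kA A)) := by
        have hz : ((xbar ^ k : Fk A M) : LaurentSeries (kA A)) =
            (xbar : LaurentSeries (kA A)) ^ k :=
          map_zpow₀ (modularFunctionFieldFullC (kA A) M).val xbar k
        rw [map_mul, map_zpow₀, map_zpow₀, map_natCast, hz]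
        have := (isRed_natCast_zpow (A := A) (N := M * p) hp.ne_zero n).mul (IsRed.zpow' hxbar k)
        rwa [one_mul] at this
      have h2 := key w R hRV hC ((p : FK K (M * p)) ^ n * x ^ k) (xbar ^ k)
        (mul_ne_zero (zpow_ne_zero _ hp0) (zpow_ne_zero _ hx0)) hd g r hg hr
        (by rw [map_mul, map_zpow₀, map_zpow₀, map_natCast]; exact hcong)
      rw [Place.ord_zpow] at h2
      have h3 : (p : ℤ) ∣ k - (c₀.val : ℤ) := by
        rw [← ZMod.intCast_zmod_eq_zero_iff_dvd]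
        push_cast
        rw [hk, ZMod.natCast_zmod_val, sub_self]
      have e : w.ord ubar - (c₀.val : ℤ) * w.ord xbar =
          (w.ord ubar - k * w.ord xbar) + (k - (c₀.val : ℤ)) * w.ord xbar := by ring
      rw [e]
      exact dvd_add h2 (Dvd.dvd.mul_right h3 _)
    · have h2 := keyS w R hRV hC hS
      have h3 : w.ord xbar = 0 := hC x hx xbar hxbar
      rw [h3, mul_zero, sub_zero]
      exact h2
  · obtain ⟨R, hRV, hC, -, h1⟩ := hpts w
    exact keyS w R hRV hC (h1 hw)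

end Fermat.Agent.S44.X.Slope.Asm

end
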